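import Fermat.Agent.S27.Defs

/-!
# S27 [C2a]: existence of a plane model `F = K(x, y)`
-/

set_option autoImplicit false

namespace Fermat.Agent.S27

open Polynomial IntermediateField
open scoped Polynomial.Bivariate

section
variable {K F : Type*} [Field K] [Field F] [Algebra K F]

theorem planeModel_aevalAeval_eq (x y : F) (q : K[X][Y]) :
    q.aevalAeval x y = Polynomial.eval₂ ((aeval x : K[X] →ₐ[K] F) : K[X] →+* F) y q := by
  induction q using Polynomial.induction_on' with
  | add p q hp hq => rw [map_add, hp, hq, eval₂_add]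
  | monomial n a =>
    rw [← C_mul_X_pow_eq_monomial, map_mul, map_pow, aevalAeval_C, aevalAeval_Y, eval₂_mul,
      eval₂_pow, eval₂_C, eval₂_X]
    rfl

open scoped algebraAdjoinAdjoin in
theorem planeModel_isAlgebraic (x : F) (hx : Transcendental K x) (α : F)
    (hα : IsAlgebraic K⟮x⟯ α) :
    ∃ q : K[X][Y], q ≠ 0 ∧ Polynomial.eval₂ ((aeval x : K[X] →ₐ[K] F) : K[X] →+* F) α q = 0 := by
  have h1 : IsAlgebraic (Algebra.adjoin K {x}) α :=
    (IsFractionRing.isAlgebraic_iff (Algebra.adjoin K {x}) K⟮x⟯ F).mpr hα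
  obtain ⟨q', hq'0, hq'⟩ := h1
  let e := Polynomial.algEquivOfTranscendental K x hx
  refine ⟨q'.map (e.symm : Algebra.adjoin K {x} →+* K[X]), ?_, ?_⟩
  · rwa [Ne, Polynomial.map_eq_zero_iff e.symm.injective]
  · rw [eval₂_map]
    have hcomp : (((aeval x : K[X] →ₐ[K] F) : K[X] →+* F).comp
        (e.symm : Algebra.adjoin K {x} →+* K[X])) = algebraMap (Algebra.adjoin K {x}) F := by
      ext a
      obtain ⟨f, rfl⟩ := e.surjective a
      simp only [RingHom.coe_comp, RingHom.coe_coe, Function.comp_apply, AlgEquiv.symm_apply_apply]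
      rw [Polynomial.algEquivOfTranscendental_apply]
      exact (aeval_algebraMap_apply F
        (⟨x, Algebra.self_mem_adjoin_singleton K x⟩ : Algebra.adjoin K {x}) f)
    rw [hcomp]
    exact hq'

/-- unbundled form of the existence of a plane model. -/
theorem planeModel_exists_aux [CharZero K] (x : F) (hx : Transcendental K x)
    [FiniteDimensional K⟮x⟯ F] :
    ∃ (y : F) (p : K[X][Y]), IntermediateField.adjoin K {x, y} = ⊤ ∧ p.aevalAeval x y = 0 ∧
      (∀ q : K[X][Y], q.aevalAeval x y = 0 → p ∣ q) ∧ (derivative p).aevalAeval x y ≠ 0 := by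
  -- the `K[X]`-algebra structure on `F`
  let _ : Algebra K[X] F := ((aeval x : K[X] →ₐ[K] F) : K[X] →+* F).toAlgebra
  have halgmap : algebraMap K[X] F = ((aeval x : K[X] →ₐ[K] F) : K[X] →+* F) := rfl
  have hinj : Function.Injective (algebraMap K[X] F) := by
    rw [halgmap]
    exact transcendental_iff_injective.mp hx
  have : FaithfulSMul K[X] F := (faithfulSMul_iff_algebraMap_injective K[X] F).mpr hinj
  have : Module.IsTorsionFree K[X] F := inferInstance
  have haeval : ∀ (y : F) (q : K[X][Y]), q.aevalAeval x y = aeval y q := by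
    intro y q
    rw [planeModel_aevalAeval_eq]
    rfl
  -- primitive element
  have : CharZero K⟮x⟯ := charZero_of_injective_algebraMap (algebraMap K K⟮x⟯).injective
  obtain ⟨α, hα⟩ := Field.exists_primitive_element K⟮x⟯ F
  have hαalg : IsAlgebraic K⟮x⟯ α := Algebra.IsAlgebraic.isAlgebraic α
  obtain ⟨q₀, hq₀, hq₀α⟩ := planeModel_isAlgebraic x hx α hαalg
  have hαalg' : IsAlgebraic K[X] α := ⟨q₀, hq₀, hq₀α⟩
  obtain ⟨d, hd0, hdint⟩ := hαalg'.exists_integral_multiple
  set y : F := d • α with hy
  have hyα : y = aeval x d * α := by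
    rw [hy, Algebra.smul_def]
    rfl
  have hdx : aeval x d ≠ 0 := by
    intro h
    exact hd0 (hinj (by rw [map_zero]; exact h))
  have hdmem : aeval x d ∈ K⟮x⟯ := by
    have := (algebra_adjoin_le_adjoin K {x})
      (show aeval x d ∈ Algebra.adjoin K {x} from by
        rw [Algebra.adjoin_singleton_eq_range_aeval]
        exact ⟨d, rfl⟩)
    exact this
  have htop : K⟮x⟯⟮y⟯ = ⊤ := by
    rw [eq_top_iff, ← hα, adjoin_simple_le_iff]
    have h1 : α = (algebraMap K⟮x⟯ F ⟨aeval x d, hdmem⟩)⁻¹ * y := by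
      rw [hyα]
      show α = (aeval x d)⁻¹ * (aeval x d * α)
      rw [← mul_assoc, inv_mul_cancel₀ hdx, one_mul]
    rw [h1]
    exact mul_mem (inv_mem (IntermediateField.algebraMap_mem _ _)) (mem_adjoin_simple_self _ y)
  have hgen : IntermediateField.adjoin K {x, y} = ⊤ := by
    rw [← adjoin_simple_adjoin_simple, htop, restrictScalars_top]
  refine ⟨y, minpoly K[X] y, hgen, ?_, ?_, ?_⟩
  · rw [haeval]
    exact minpoly.aeval _ _
  · intro q hq
    rw [haeval] at hq
    exact minpoly.isIntegrallyClosed_dvd hdint hq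
  · rw [haeval]
    intro h
    have hdvd := minpoly.isIntegrallyClosed_dvd hdint h
    have hmonic := minpoly.monic hdint
    have hpos : 0 < (minpoly K[X] y).natDegree := minpoly.natDegree_pos hdint
    have hdeg : (derivative (minpoly K[X] y)).natDegree < (minpoly K[X] y).natDegree :=
      natDegree_derivative_lt hpos.ne'
    have hne : derivative (minpoly K[X] y) ≠ 0 := by
      intro h0
      have := Polynomial.derivative_eq_zero.mp h0
      omega
    exact hmonic.not_dvd_of_natDegree_lt hne hdeg hdvd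

theorem exists_planeModel [CharZero K] [Fermat.Agent.S24.FF.IsFF1 K F] :
    Nonempty (PlaneModel K F) := by
  obtain ⟨x, hx, hfin⟩ := Fermat.Agent.S24.FF.IsFF1.exists_transcendental (K := K) (F := F)
  obtain ⟨y, p, hgen, hroot, hker, hsep⟩ := planeModel_exists_aux x hx
  exact ⟨⟨x, y, p, hx, hgen, hroot, hker, hsep⟩⟩

end

end Fermat.Agent.S27
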