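import Fermat.Agent.S27.C.Chart
import Fermat.Agent.S27.C.PlaneModel

/-!
# S27 [C-main]: all but finitely many places of `F/ℂ` have an analytic chart
-/

set_option autoImplicit false

namespace Fermat.Agent.S27

open AlgebraicCurve Fermat.Agent.S24.FF Polynomial Topology Filter
open scoped Polynomial.Bivariate

variable {F : Type*} [Field F] [Algebra ℂ F] [IsFF1 ℂ F]

/-- [C-main] all but finitely many places have a chart. -/
theorem exists_charts : ∃ S : Finset (Place ℂ F), ∀ v : Place ℂ F, v ∉ S → Nonempty (Chart v) := by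
  obtain ⟨m⟩ := exists_planeModel (K := ℂ) (F := F)
  refine ⟨m.finite_bad.toFinset, fun v hv => ?_⟩
  simp only [Set.Finite.mem_toFinset, Set.mem_ofPred_eq, not_not] at hv
  exact m.nonempty_chart v hv.1 hv.2.1 hv.2.2

end Fermat.Agent.S27
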