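import Fermat.Agent.S27.C.Smooth
import Mathlib.Analysis.Calculus.ImplicitContDiff
import Mathlib.Analysis.Analytic.Polynomial

/-!
# S27 [C3]: analytic chart at a smooth point of a plane model
-/

set_option autoImplicit false

noncomputable section

namespace Fermat.Agent.S27

open AlgebraicCurve Fermat.Agent.S24.FF Polynomial Topology Filter
open scoped Polynomial.Bivariate ContDiff

/-! ## analytic preliminaries -/

section Analytic

variable {E : Type*} [NormedAddCommGroup E] [NormedSpace ℂ E]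

/-- a bivariate polynomial in two analytic functions is analytic. -/
theorem analyticAt_evalEval (q : ℂ[X][Y]) {g h : E → ℂ} {z : E} (hg : AnalyticAt ℂ g z)
    (hh : AnalyticAt ℂ h z) : AnalyticAt ℂ (fun u => q.evalEval (g u) (h u)) z := by
  induction q using Polynomial.induction_on' with
  | add p q hp hq =>
    simp_rw [evalEval_add]
    exact hp.add hq
  | monomial n c =>
    have e : ∀ u, (monomial n c : ℂ[X][Y]).evalEval (g u) (h u) = aeval (g u) c * h u ^ n := by
      intro u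
      rw [← C_mul_X_pow_eq_monomial, evalEval_mul, evalEval_C, evalEval_pow, evalEval_X]
      rfl
    simp_rw [e]
    exact (hg.aeval_polynomial c).mul (hh.pow n)

theorem hasDerivAt_evalEval_snd (q : ℂ[X][Y]) (a b : ℂ) :
    HasDerivAt (fun y => q.evalEval a y) ((derivative q).evalEval a b) b := by
  have e : ∀ (r : ℂ[X][Y]) (y : ℂ), r.evalEval a y = (r.map (evalRingHom a)).eval y :=
    fun r y => (map_evalRingHom_eval a y r).symm
  simp_rw [e]
  rw [← derivative_map]
  exact Polynomial.hasDerivAt _ _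

/-- the implicit function theorem for plane curves. -/
theorem exists_implicit_evalEval (p : ℂ[X][Y]) (a b : ℂ) (h0 : p.evalEval a b = 0)
    (h1 : (derivative p).evalEval a b ≠ 0) :
    ∃ Yf : ℂ → ℂ, AnalyticAt ℂ Yf 0 ∧ Yf 0 = b ∧
      ∀ᶠ τ in 𝓝 (0 : ℂ), p.evalEval (a + τ) (Yf τ) = 0 := by
  set f : ℂ × ℂ → ℂ := fun z => p.evalEval (a + z.1) z.2 with hf
  set u : ℂ × ℂ := (0, b) with hu
  have han : AnalyticAt ℂ f u :=
    analyticAt_evalEval p (analyticAt_const.add analyticAt_fst) analyticAt_snd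
  have cdf : ContDiffAt ℂ ω f u := han.contDiffAt
  have pn : (ω : ℕ∞ω) ≠ 0 := by simp
  have hfd : HasFDerivAt f (fderiv ℂ f u) u := han.differentiableAt.hasFDerivAt
  have hcomp : HasFDerivAt (fun y : ℂ => f (0, y)) (fderiv ℂ f u ∘L .inr ℂ ℂ ℂ) b :=
    hfd.comp b (hasFDerivAt_prodMk_right (𝕜 := ℂ) (0 : ℂ) b)
  have hd : HasDerivAt (fun y : ℂ => f (0, y)) ((derivative p).evalEval a b) b := by
    have := hasDerivAt_evalEval_snd p a b
    simpa [hf] using this
  have heq := hcomp.unique hd.hasFDerivAt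
  have if₂ : (fderiv ℂ f u ∘L .inr ℂ ℂ ℂ).IsInvertible := by
    rw [heq]
    set c := (derivative p).evalEval a b
    refine ContinuousLinearMap.IsInvertible.of_inverse
      (g := ContinuousLinearMap.toSpanSingleton ℂ c⁻¹) ?_ ?_
    · ext; simp [h1]
    · ext; simp [h1]
  refine ⟨cdf.implicitFunction pn if₂, (cdf.contDiffAt_implicitFunction pn if₂).analyticAt,
    cdf.implicitFunction_apply_self pn if₂, ?_⟩
  have := cdf.eventually_apply_implicitFunction pn if₂
  have hfu : f u = 0 := by simp [hf, hu, h0]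
  rw [hfu] at this
  exact this

open Classical in
/-- `z ↦ 1/z` as a map `ℂ → ℂ ∪ {∞}`. -/
def invOP (z : ℂ) : OnePoint ℂ := if z = 0 then OnePoint.infty else ((z⁻¹ : ℂ) : OnePoint ℂ)

theorem continuousAt_invOP_zero : ContinuousAt invOP 0 := by
  have h0 : invOP 0 = OnePoint.infty := by simp [invOP]
  unfold ContinuousAt
  rw [h0, ← nhdsNE_sup_pure (0 : ℂ), tendsto_sup]
  constructor
  · have h1 : Tendsto (fun z : ℂ => z⁻¹) (𝓝[≠] 0) (coclosedCompact ℂ) := by
      rw [coclosedCompact_eq_cocompact, ← Metric.cobounded_eq_cocompact]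
      exact tendsto_inv₀_nhdsNE_zero
    have h2 := OnePoint.tendsto_coe_infty.comp h1
    refine h2.congr' ?_
    filter_upwards [self_mem_nhdsWithin] with z hz
    simp [invOP, show z ≠ 0 from hz]
  · rw [tendsto_pure_left]
    intro s hs
    rw [h0]
    exact mem_of_mem_nhds hs

end Analytic

/-! ## places at smooth points -/

section Charts

variable {F : Type*} [Field F] [Algebra ℂ F] [IsFF1 ℂ F]

/-- a quotient `r(x,y)/s(x,y)` with `s(a,b) ≠ 0` is regular at a place over `(a,b)`, with value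
`r(a,b)/s(a,b)`. -/
theorem PlaneModel.val_of_mul_eq (m : PlaneModel ℂ F) (w : Place ℂ F) (hx : 0 ≤ w.ord m.x)
    (hy : 0 ≤ w.ord m.y) {f : F} {r s : ℂ[X][Y]}
    (hs : s.evalEval (val w m.x) (val w m.y) ≠ 0)
    (hf : f * s.aevalAeval m.x m.y = r.aevalAeval m.x m.y) :
    0 ≤ w.ord f ∧
      val w f = r.evalEval (val w m.x) (val w m.y) / s.evalEval (val w m.x) (val w m.y) := by
  obtain ⟨hS, hSv⟩ := m.val_aevalAeval w hx hy s
  obtain ⟨hR, hRv⟩ := m.val_aevalAeval w hx hy r
  have hS0 : s.aevalAeval m.x m.y ≠ 0 := by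
    intro h
    rw [h, val_zero] at hSv
    exact hs hSv.symm
  have hSo : w.ord (s.aevalAeval m.x m.y) = 0 :=
    (val_ne_zero_iff w hS0 hS).mp (by rw [hSv]; exact hs)
  have hfe : f = r.aevalAeval m.x m.y / s.aevalAeval m.x m.y := eq_div_of_mul_eq hS0 hf
  constructor
  · rw [hfe, div_eq_mul_inv]
    refine ord_mul_nonneg w hR ?_
    rw [w.ord_inv, hSo]
    simp
  · rw [hfe, val_div w hR hSo, hRv, hSv]

open Classical in
/-- the place at the smooth point `(a,b)` of the plane model (junk value `v`). -/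
def PlaneModel.placeAt (m : PlaneModel ℂ F) (v : Place ℂ F) (a b : ℂ) : Place ℂ F :=
  if h : m.p.evalEval a b = 0 ∧ (derivative m.p).evalEval a b ≠ 0 then
    (m.exists_place a b h.1 h.2).choose else v

theorem PlaneModel.placeAt_spec (m : PlaneModel ℂ F) (v : Place ℂ F) (a b : ℂ)
    (h0 : m.p.evalEval a b = 0) (h1 : (derivative m.p).evalEval a b ≠ 0) :
    0 ≤ (m.placeAt v a b).ord m.x ∧ 0 ≤ (m.placeAt v a b).ord m.y ∧
      val (m.placeAt v a b) m.x = a ∧ val (m.placeAt v a b) m.y = b ∧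
      (m.placeAt v a b).ord (m.x - algebraMap ℂ F a) = 1 ∧
      ∀ f : F, 0 ≤ (m.placeAt v a b).ord f → ∃ r s : ℂ[X][Y], s.evalEval a b ≠ 0 ∧
        f * s.aevalAeval m.x m.y = r.aevalAeval m.x m.y := by
  unfold PlaneModel.placeAt
  rw [dif_pos ⟨h0, h1⟩]
  exact (m.exists_place a b h0 h1).choose_spec

theorem PlaneModel.nonempty_chart (m : PlaneModel ℂ F) (v : Place ℂ F) (hx : 0 ≤ v.ord m.x)
    (hy : 0 ≤ v.ord m.y) (h1 : (derivative m.p).evalEval (val v m.x) (val v m.y) ≠ 0) :
    Nonempty (Chart v) := by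
  set a := val v m.x with ha
  set b := val v m.y with hb
  have h0 : m.p.evalEval a b = 0 := by
    have := (m.val_aevalAeval v hx hy m.p).2
    rw [m.root, val_zero] at this
    exact this.symm
  obtain ⟨Yf, hYan, hY0, hYev⟩ := exists_implicit_evalEval m.p a b h0 h1
  have hXan : AnalyticAt ℂ (fun τ : ℂ => a + τ) 0 := analyticAt_const.add analyticAt_id
  have hder : ∀ᶠ τ in 𝓝 (0 : ℂ), (derivative m.p).evalEval (a + τ) (Yf τ) ≠ 0 := by
    have hc : ContinuousAt (fun τ => (derivative m.p).evalEval (a + τ) (Yf τ)) 0 :=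
      (analyticAt_evalEval _ hXan hYan).continuousAt
    apply hc.eventually_ne
    simpa [hY0] using h1
  set w : ℂ → Place ℂ F := fun τ => m.placeAt v (a + τ) (Yf τ) with hw
  have hwspec : ∀ᶠ τ in 𝓝 (0 : ℂ), 0 ≤ (w τ).ord m.x ∧ 0 ≤ (w τ).ord m.y ∧
      val (w τ) m.x = a + τ ∧ val (w τ) m.y = Yf τ ∧
      (w τ).ord (m.x - algebraMap ℂ F (a + τ)) = 1 := by
    filter_upwards [hYev, hder] with τ h0τ h1τ
    obtain ⟨q1, q2, q3, q4, q5, -⟩ := m.placeAt_spec v (a + τ) (Yf τ) h0τ h1τ
    exact ⟨q1, q2, q3, q4, q5⟩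
  have hw0 : w 0 = v := by
    obtain ⟨q1, q2, q3, q4, -⟩ := hwspec.self_of_nhds
    rw [add_zero] at q3
    rw [hY0] at q4
    refine m.place_unique (w 0) v q1 q2 hx hy q3 q4 ?_
    rw [q3, q4]
    exact h1
  have holo : ∀ f : F, 0 ≤ v.ord f → ∃ fh : ℂ → ℂ, AnalyticAt ℂ fh 0 ∧
      ∀ᶠ τ in 𝓝 (0 : ℂ), 0 ≤ (w τ).ord f ∧ val (w τ) f = fh τ := by
    intro f hf
    obtain ⟨-, -, -, -, -, q6⟩ := m.placeAt_spec v a b h0 h1
    have hv' : m.placeAt v a b = v := by
      have : w 0 = m.placeAt v a b := by simp [hw, hY0]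
      rw [← this, hw0]
    rw [hv'] at q6
    obtain ⟨r, s, hs, hrs⟩ := q6 f hf
    have hsan := analyticAt_evalEval s hXan hYan
    have hran := analyticAt_evalEval r hXan hYan
    have hs0 : s.evalEval (a + 0) (Yf 0) ≠ 0 := by simpa [hY0] using hs
    refine ⟨fun τ => r.evalEval (a + τ) (Yf τ) / s.evalEval (a + τ) (Yf τ),
      hran.div hsan hs0, ?_⟩
    filter_upwards [hwspec, hsan.continuousAt.eventually_ne hs0] with τ hτ hsτ
    obtain ⟨q1, q2, q3, q4, -⟩ := hτ
    have := m.val_of_mul_eq (w τ) q1 q2 (f := f) (r := r) (s := s) (by rw [q3, q4]; exact hsτ) hrs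
    rw [q3, q4] at this
    exact this
  refine ⟨⟨m.x - algebraMap ℂ F a, w, hw0, ?_, holo, ?_⟩⟩
  · filter_upwards [hwspec] with τ hτ
    obtain ⟨-, -, -, -, q5⟩ := hτ
    rw [map_add, ← sub_sub] at q5
    exact q5
  · have hind : IsInducing (fun (v : Place ℂ F) (f : F) => evalOP v f) := ⟨rfl⟩
    rw [hind.continuousAt_iff, continuousAt_pi]
    intro f
    show ContinuousAt (fun τ => evalOP (w τ) f) 0
    rcases le_or_gt 0 (v.ord f) with hf | hf
    · obtain ⟨fh, hfh, hev⟩ := holo f hf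
      have hc : ContinuousAt (fun τ => ((fh τ : ℂ) : OnePoint ℂ)) 0 :=
        OnePoint.continuous_coe.continuousAt.comp hfh.continuousAt
      refine hc.congr ?_
      filter_upwards [hev] with τ hτ
      rw [evalOP_of_nonneg _ hτ.1, hτ.2]
    · have hf0 : f ≠ 0 := by
        rintro rfl
        simp at hf
      have hg : 0 < v.ord f⁻¹ := by
        rw [v.ord_inv]
        omega
      obtain ⟨fh, hfh, hev⟩ := holo f⁻¹ hg.le
      have hfh0 : fh 0 = 0 := by
        have := hev.self_of_nhds.2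
        rw [hw0, val_eq_zero_of_ord_pos v hg] at this
        exact this.symm
      have hc : ContinuousAt (fun τ => invOP (fh τ)) 0 := by
        refine ContinuousAt.comp (g := invOP) ?_ hfh.continuousAt
        rw [hfh0]
        exact continuousAt_invOP_zero
      refine hc.congr ?_
      filter_upwards [hev] with τ hτ
      obtain ⟨q1, q2⟩ := hτ
      by_cases hz : fh τ = 0
      · have h3 : 0 < (w τ).ord f⁻¹ := by
          rw [hz] at q2
          rcases (val_eq_zero_iff (w τ) q1).mp q2 with h | h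
          · exact absurd h (inv_ne_zero hf0)
          · exact h
        rw [(w τ).ord_inv] at h3
        rw [evalOP_of_neg (w τ) (by omega)]
        simp [invOP, hz]
      · have h3 : (w τ).ord f⁻¹ = 0 :=
          (val_ne_zero_iff (w τ) (inv_ne_zero hf0) q1).mp (by rw [q2]; exact hz)
        have h4 := val_inv (w τ) h3
        rw [inv_inv, q2] at h4
        rw [(w τ).ord_inv] at h3
        rw [evalOP_of_nonneg (w τ) (by omega), h4]
        simp [invOP, hz]

end Charts

end Fermat.Agent.S27
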