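import Fermat.Agent.S27.A.Api

/-!
# S27 [C2b]: smooth points of a plane model are places

`PlaneModel.val_aevalAeval`, `PlaneModel.exists_place`, `PlaneModel.place_unique`,
`PlaneModel.finite_bad`.

The key point is `PlaneModel.exists_decomp`: at a place `w` centred at a smooth point `(a,b)` every
nonzero `g ∈ F` is `(x-a)^k * r(x,y) / s(x,y)` with `r(a,b), s(a,b) ≠ 0`.
-/

set_option autoImplicit false

namespace Fermat.Agent.S27

open AlgebraicCurve Fermat.Agent.S24.FF Polynomial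
open scoped Polynomial.Bivariate

/-! ## polynomial algebra -/

section Poly

variable {K : Type*} [Field K]

/-- `r(X,Y) = (X-a) r₁(X,Y) + (Y-b) r₂(Y)` if `r(a,b) = 0`. -/
theorem exists_eq_add_of_evalEval_eq_zero (a b : K) (r : K[X][Y]) (h : r.evalEval a b = 0) :
    ∃ (r₁ : K[X][Y]) (r₂ : K[X]),
      r = C (X - C a) * r₁ + (X - C (C b)) * r₂.map C := by
  have h1 : C (X - C a) ∣ r - (r.map (evalRingHom a)).map C := by
    rw [C_dvd_iff_dvd_coeff]
    intro i
    simp only [coeff_sub, coeff_map, coe_evalRingHom]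
    exact X_sub_C_dvd_sub_C_eval
  have h2 : (X - C b) ∣ r.map (evalRingHom a) := by
    rw [dvd_iff_isRoot, IsRoot.def, map_evalRingHom_eval, h]
  obtain ⟨r₁, hr₁⟩ := h1
  obtain ⟨r₂, hr₂⟩ := h2
  refine ⟨r₁, r₂, ?_⟩
  rw [← hr₁, hr₂]
  simp

/-- in the decomposition of `exists_eq_add_of_evalEval_eq_zero`, `r₂(b) = r_Y(a,b)`. -/
theorem evalEval_derivative_of_eq_add (a b : K) (r r₁ : K[X][Y]) (r₂ : K[X])
    (h : r = C (X - C a) * r₁ + (X - C (C b)) * r₂.map C) :
    (derivative r).evalEval a b = r₂.eval b := by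
  rw [h]
  simp only [derivative_add, derivative_mul, derivative_C, derivative_sub, derivative_X,
    evalEval_add, evalEval_mul, evalEval_sub, evalEval_C, evalEval_X, evalEval_map_C,
    evalEval_zero, evalEval_one, eval_sub, eval_X, eval_C]
  ring

end Poly

section Plane

variable {K F : Type*} [Field K] [Field F] [Algebra K F]

theorem aevalAeval_C_X_sub_C (x y : F) (a : K) :
    (C (X - C a) : K[X][Y]).aevalAeval x y = x - algebraMap K F a := by
  rw [aevalAeval_C]; simp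

theorem aevalAeval_Y_sub_CC (x y : F) (b : K) :
    ((X : K[X][Y]) - C (C b)).aevalAeval x y = y - algebraMap K F b := by
  rw [map_sub, aevalAeval_Y, aevalAeval_C]; simp

/-- every element of `F` is a quotient of polynomial expressions in `x`, `y`. -/
theorem PlaneModel.exists_div (m : PlaneModel K F) (g : F) :
    ∃ r s : K[X][Y], s.aevalAeval m.x m.y ≠ 0 ∧
      g * s.aevalAeval m.x m.y = r.aevalAeval m.x m.y := by
  have hle : Algebra.adjoin K {m.x, m.y} ≤ (aevalAeval (R := K) m.x m.y).range := by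
    apply Algebra.adjoin_le
    rintro z (rfl | rfl)
    · exact ⟨C X, aevalAeval_X _ _⟩
    · exact ⟨X, aevalAeval_Y _ _⟩
  have hg : g ∈ IntermediateField.adjoin K {m.x, m.y} := by rw [m.gen]; trivial
  obtain ⟨r, hr, s, hs, rfl⟩ := IntermediateField.mem_adjoin_iff_div.mp hg
  obtain ⟨r, rfl⟩ := hle hr
  obtain ⟨s, rfl⟩ := hle hs
  by_cases h0 : s.aevalAeval m.x m.y = 0
  · refine ⟨0, 1, by simp, ?_⟩
    have : (aevalAeval (R := K) m.x m.y).toRingHom s = 0 := h0
    rw [this, div_zero, zero_mul, map_zero]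
  · refine ⟨r, s, h0, ?_⟩
    exact div_mul_cancel₀ _ h0

/-- a polynomial not vanishing at a point of the curve gives a nonzero function. -/
theorem PlaneModel.aevalAeval_ne_zero (m : PlaneModel K F) {a b : K}
    (h0 : m.p.evalEval a b = 0) {s : K[X][Y]} (hs : s.evalEval a b ≠ 0) :
    s.aevalAeval m.x m.y ≠ 0 := by
  intro h
  obtain ⟨c, rfl⟩ := m.ker s h
  rw [evalEval_mul, h0, zero_mul] at hs
  exact hs rfl

/-- the maximal ideal of the local ring at a smooth point is generated by `x - a`. -/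
theorem PlaneModel.exists_mul_eq (m : PlaneModel K F) (a b : K) (h0 : m.p.evalEval a b = 0)
    (h1 : (derivative m.p).evalEval a b ≠ 0) :
    ∃ s₀ : K[X][Y], s₀.evalEval a b ≠ 0 ∧ ∀ r : K[X][Y], r.evalEval a b = 0 →
      ∃ r' : K[X][Y], r.aevalAeval m.x m.y * s₀.aevalAeval m.x m.y =
        (m.x - algebraMap K F a) * r'.aevalAeval m.x m.y := by
  obtain ⟨q₁, q₂, hq⟩ := exists_eq_add_of_evalEval_eq_zero a b m.p h0
  have hq₂ : q₂.eval b ≠ 0 := by
    rwa [← evalEval_derivative_of_eq_add a b m.p q₁ q₂ hq]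
  refine ⟨q₂.map C, by rwa [evalEval_map_C], fun r hr => ?_⟩
  obtain ⟨r₁, r₂, hr'⟩ := exists_eq_add_of_evalEval_eq_zero a b r hr
  refine ⟨r₁ * q₂.map C - q₁ * r₂.map C, ?_⟩
  have hroot := m.root
  rw [hq, map_add, map_mul, map_mul, aevalAeval_C_X_sub_C, aevalAeval_Y_sub_CC] at hroot
  rw [hr', map_add, map_mul, map_mul, aevalAeval_C_X_sub_C, aevalAeval_Y_sub_CC, map_sub, map_mul,
    map_mul]
  linear_combination (r₂.map C).aevalAeval m.x m.y * hroot

variable [IsAlgClosed K] [CharZero K] [IsFF1 K F]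

omit [CharZero K] in
theorem val_aeval (w : Place K F) {x : F} (hx : 0 ≤ w.ord x) (c : K[X]) :
    0 ≤ w.ord (aeval x c) ∧ val w (aeval x c) = c.eval (val w x) := by
  induction c using Polynomial.induction_on' with
  | add p q hp hq =>
    rw [map_add, eval_add, val_add w hp.1 hq.1, hp.2, hq.2]
    exact ⟨ord_add_nonneg w hp.1 hq.1, rfl⟩
  | monomial n c =>
    rw [aeval_monomial, eval_monomial]
    refine ⟨ord_mul_nonneg w (ord_algebraMap_nonneg w c) (ord_pow_nonneg w hx n), ?_⟩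
    rw [val_mul w (ord_algebraMap_nonneg w c) (ord_pow_nonneg w hx n), val_algebraMap,
      val_pow w hx]

/-- values of polynomial expressions. -/
theorem PlaneModel.val_aevalAeval (m : PlaneModel K F) (w : Place K F) (hx : 0 ≤ w.ord m.x)
    (hy : 0 ≤ w.ord m.y) (q : K[X][Y]) :
    0 ≤ w.ord (q.aevalAeval m.x m.y) ∧
      val w (q.aevalAeval m.x m.y) = q.evalEval (val w m.x) (val w m.y) := by
  induction q using Polynomial.induction_on' with
  | add p q hp hq =>
    rw [map_add, evalEval_add, val_add w hp.1 hq.1, hp.2, hq.2]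
    exact ⟨ord_add_nonneg w hp.1 hq.1, rfl⟩
  | monomial n c =>
    have h := val_aeval w hx c
    rw [← C_mul_X_pow_eq_monomial, map_mul, map_pow, aevalAeval_C, aevalAeval_Y, evalEval_mul,
      evalEval_pow, evalEval_C, evalEval_X]
    refine ⟨ord_mul_nonneg w h.1 (ord_pow_nonneg w hy n), ?_⟩
    rw [val_mul w h.1 (ord_pow_nonneg w hy n), h.2, val_pow w hy]

/-- at a place centred at `(a,b)`, a polynomial expression not vanishing at `(a,b)` is a unit. -/
theorem PlaneModel.ord_eq_zero_of_evalEval_ne_zero (m : PlaneModel K F) (w : Place K F)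
    (hx : 0 ≤ w.ord m.x) (hy : 0 ≤ w.ord m.y) {s : K[X][Y]}
    (hs : s.evalEval (val w m.x) (val w m.y) ≠ 0) :
    s.aevalAeval m.x m.y ≠ 0 ∧ w.ord (s.aevalAeval m.x m.y) = 0 := by
  obtain ⟨h1, h2⟩ := m.val_aevalAeval w hx hy s
  have h0 : s.aevalAeval m.x m.y ≠ 0 := by
    intro h
    rw [h, val_zero] at h2
    exact hs h2.symm
  refine ⟨h0, ?_⟩
  rw [← val_ne_zero_iff w h0 h1, h2]
  exact hs

/-- the centre of a place lies on the curve. -/
theorem PlaneModel.evalEval_val_eq_zero (m : PlaneModel K F) (w : Place K F)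
    (hx : 0 ≤ w.ord m.x) (hy : 0 ≤ w.ord m.y) :
    m.p.evalEval (val w m.x) (val w m.y) = 0 := by
  rw [← (m.val_aevalAeval w hx hy m.p).2, m.root, val_zero]

/-- `x - a` vanishes at a place with `x(w) = a`. -/
theorem PlaneModel.ord_x_sub_pos (m : PlaneModel K F) (w : Place K F) (hx : 0 ≤ w.ord m.x) :
    m.x - algebraMap K F (val w m.x) ≠ 0 ∧ 0 < w.ord (m.x - algebraMap K F (val w m.x)) := by
  have h0 : m.x - algebraMap K F (val w m.x) ≠ 0 := by
    intro h
    exact transcendental_sub_algebraMap m.hx (val w m.x) (h ▸ isAlgebraic_zero)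
  exact ⟨h0, (val_spec' w hx).resolve_left h0⟩

/-- polynomial version of the decomposition `f = (x-a)^k * unit`. -/
theorem PlaneModel.exists_decomp_poly (m : PlaneModel K F) (w : Place K F)
    (hx : 0 ≤ w.ord m.x) (hy : 0 ≤ w.ord m.y)
    (h1 : (derivative m.p).evalEval (val w m.x) (val w m.y) ≠ 0) (n : ℕ) :
    ∀ r : K[X][Y], r.aevalAeval m.x m.y ≠ 0 → w.ord (r.aevalAeval m.x m.y) ≤ n →
      ∃ (k : ℕ) (r' s' : K[X][Y]), r'.evalEval (val w m.x) (val w m.y) ≠ 0 ∧
        s'.evalEval (val w m.x) (val w m.y) ≠ 0 ∧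
        r.aevalAeval m.x m.y * s'.aevalAeval m.x m.y =
          (m.x - algebraMap K F (val w m.x)) ^ k * r'.aevalAeval m.x m.y := by
  obtain ⟨s₀, hs₀, hdiv⟩ := m.exists_mul_eq _ _ (m.evalEval_val_eq_zero w hx hy) h1
  obtain ⟨hs₀', hs₀o⟩ := m.ord_eq_zero_of_evalEval_ne_zero w hx hy hs₀
  obtain ⟨ht0, htpos⟩ := m.ord_x_sub_pos w hx
  induction n with
  | zero =>
    intro r hr0 hrn
    by_cases hr : r.evalEval (val w m.x) (val w m.y) = 0
    · exfalso
      obtain ⟨h2, h3⟩ := m.val_aevalAeval w hx hy r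
      rw [hr, val_eq_zero_iff w h2] at h3
      have := h3.resolve_left hr0
      simp only [Nat.cast_zero] at hrn
      omega
    · exact ⟨0, r, 1, hr, by simp, by simp⟩
  | succ n ih =>
    intro r hr0 hrn
    by_cases hr : r.evalEval (val w m.x) (val w m.y) = 0
    · obtain ⟨r₁, hr₁⟩ := hdiv r hr
      have hr₁0 : r₁.aevalAeval m.x m.y ≠ 0 := by
        intro h
        rw [h, mul_zero] at hr₁
        exact mul_ne_zero hr0 hs₀' hr₁
      have hord := congrArg w.ord hr₁
      rw [w.ord_mul hr0 hs₀', w.ord_mul ht0 hr₁0, hs₀o] at hord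
      have hle : w.ord (r₁.aevalAeval m.x m.y) ≤ n := by
        push_cast at hrn
        omega
      obtain ⟨k, r', s', hr', hs', heq⟩ := ih r₁ hr₁0 hle
      refine ⟨k + 1, r', s₀ * s', hr', ?_, ?_⟩
      · rw [evalEval_mul]
        exact mul_ne_zero hs₀ hs'
      · rw [map_mul, ← mul_assoc, hr₁, mul_assoc, heq, pow_succ']
        ring
    · exact ⟨0, r, 1, hr, by simp, by simp⟩

/-- at a place `w` centred at a smooth point `(a,b)` every nonzero `g ∈ F` is
`(x-a)^k * r(x,y) / s(x,y)` with `r(a,b), s(a,b) ≠ 0`. -/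
theorem PlaneModel.exists_decomp (m : PlaneModel K F) (w : Place K F)
    (hx : 0 ≤ w.ord m.x) (hy : 0 ≤ w.ord m.y)
    (h1 : (derivative m.p).evalEval (val w m.x) (val w m.y) ≠ 0) (g : F) (hg : g ≠ 0) :
    ∃ (k : ℤ) (r s : K[X][Y]), r.evalEval (val w m.x) (val w m.y) ≠ 0 ∧
      s.evalEval (val w m.x) (val w m.y) ≠ 0 ∧
      g * s.aevalAeval m.x m.y =
        (m.x - algebraMap K F (val w m.x)) ^ k * r.aevalAeval m.x m.y := by
  obtain ⟨ht0, -⟩ := m.ord_x_sub_pos w hx
  obtain ⟨r, s, hs0, hgs⟩ := m.exists_div g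
  have hr0 : r.aevalAeval m.x m.y ≠ 0 := hgs ▸ mul_ne_zero hg hs0
  obtain ⟨k₁, r₁, s₁, hr₁, hs₁, h₁⟩ := m.exists_decomp_poly w hx hy h1
    (w.ord (r.aevalAeval m.x m.y)).toNat r hr0 (Int.self_le_toNat _)
  obtain ⟨k₂, r₂, s₂, hr₂, hs₂, h₂⟩ := m.exists_decomp_poly w hx hy h1
    (w.ord (s.aevalAeval m.x m.y)).toNat s hs0 (Int.self_le_toNat _)
  refine ⟨(k₁ : ℤ) - k₂, r₁ * s₂, r₂ * s₁, ?_, ?_, ?_⟩
  · rw [evalEval_mul]; exact mul_ne_zero hr₁ hs₂
  · rw [evalEval_mul]; exact mul_ne_zero hr₂ hs₁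
  · rw [map_mul, map_mul, zpow_sub₀ ht0, zpow_natCast, zpow_natCast, div_mul_eq_mul_div,
      eq_div_iff (pow_ne_zero _ ht0)]
    calc g * (r₂.aevalAeval m.x m.y * s₁.aevalAeval m.x m.y) *
          (m.x - algebraMap K F (val w m.x)) ^ k₂
        = g * s₁.aevalAeval m.x m.y *
          ((m.x - algebraMap K F (val w m.x)) ^ k₂ * r₂.aevalAeval m.x m.y) := by ring
      _ = (g * s.aevalAeval m.x m.y) * s₁.aevalAeval m.x m.y * s₂.aevalAeval m.x m.y := by
          rw [← h₂]; ring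
      _ = (r.aevalAeval m.x m.y * s₁.aevalAeval m.x m.y) * s₂.aevalAeval m.x m.y := by rw [hgs]
      _ = _ := by rw [h₁]; ring

/-- the order at `w'` of an element decomposed as in `exists_decomp`. -/
theorem PlaneModel.ord_of_decomp (m : PlaneModel K F) (w : Place K F)
    (hx : 0 ≤ w.ord m.x) (hy : 0 ≤ w.ord m.y) {g : F} (hg : g ≠ 0) {k : ℤ} {r s : K[X][Y]}
    (hr : r.evalEval (val w m.x) (val w m.y) ≠ 0) (hs : s.evalEval (val w m.x) (val w m.y) ≠ 0)
    (h : g * s.aevalAeval m.x m.y =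
        (m.x - algebraMap K F (val w m.x)) ^ k * r.aevalAeval m.x m.y) :
    w.ord g = k * w.ord (m.x - algebraMap K F (val w m.x)) := by
  obtain ⟨ht0, -⟩ := m.ord_x_sub_pos w hx
  obtain ⟨hr0, hro⟩ := m.ord_eq_zero_of_evalEval_ne_zero w hx hy hr
  obtain ⟨hs0, hso⟩ := m.ord_eq_zero_of_evalEval_ne_zero w hx hy hs
  have := congrArg w.ord h
  rw [w.ord_mul hg hs0, w.ord_mul (zpow_ne_zero _ ht0) hr0, hro, hso, w.ord_zpow] at this
  simpa using this

/-- [SM-uniq] the place at a smooth point is unique. -/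
theorem PlaneModel.place_unique (m : PlaneModel K F) (w w' : Place K F)
    (hx : 0 ≤ w.ord m.x) (hy : 0 ≤ w.ord m.y) (hx' : 0 ≤ w'.ord m.x) (hy' : 0 ≤ w'.ord m.y)
    (hxx : val w m.x = val w' m.x) (hyy : val w m.y = val w' m.y)
    (h1 : (derivative m.p).evalEval (val w m.x) (val w m.y) ≠ 0) : w = w' := by
  apply place_ext_of_ord_nonneg
  intro g hg
  obtain ⟨k, r, s, hr, hs, h⟩ := m.exists_decomp w hx hy h1 g hg
  have e1 := m.ord_of_decomp w hx hy hg hr hs h
  rw [hxx, hyy] at hr hs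
  rw [hxx] at h
  have e2 := m.ord_of_decomp w' hx' hy' hg hr hs h
  have p1 := (m.ord_x_sub_pos w hx).2
  have p2 := (m.ord_x_sub_pos w' hx').2
  rw [e1, e2, mul_nonneg_iff_of_pos_right p1, mul_nonneg_iff_of_pos_right p2]

/-- every point of the plane curve is the centre of a place. -/
theorem PlaneModel.exists_place_centre (m : PlaneModel K F) (a b : K)
    (h0 : m.p.evalEval a b = 0) :
    ∃ w : Place K F, 0 ≤ w.ord m.x ∧ 0 ≤ w.ord m.y ∧ val w m.x = a ∧ val w m.y = b := by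
  let φ : K[X][Y] →+* F := (aevalAeval (R := K) m.x m.y).toRingHom
  let A : Subring F := φ.range
  let ξ : A := ⟨m.x - algebraMap K F a, C (X - C a), aevalAeval_C_X_sub_C _ _ _⟩
  let η : A := ⟨m.y - algebraMap K F b, X - C (C b), aevalAeval_Y_sub_CC _ _ _⟩
  have hI : Ideal.span {ξ, η} ≠ ⊤ := by
    intro htop
    have h1 : (1 : A) ∈ Ideal.span {ξ, η} := by rw [htop]; trivial
    obtain ⟨⟨_, u, rfl⟩, ⟨_, v, rfl⟩, huv⟩ := Ideal.mem_span_pair.mp h1
    have huv' : φ u * (m.x - algebraMap K F a) + φ v * (m.y - algebraMap K F b) = 1 :=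
      congrArg Subtype.val huv
    have hker : (u * C (X - C a) + v * (X - C (C b)) - 1 : K[X][Y]).aevalAeval m.x m.y = 0 := by
      rw [map_sub, map_add, map_mul, map_mul, aevalAeval_C_X_sub_C, aevalAeval_Y_sub_CC, map_one,
        sub_eq_zero]
      exact huv'
    obtain ⟨c, hc⟩ := m.ker _ hker
    have := congrArg (evalEval a b) hc
    rw [evalEval_mul, h0, zero_mul] at this
    simp only [evalEval_sub, evalEval_add, evalEval_mul, evalEval_C, evalEval_X, evalEval_one,
      eval_sub, eval_X, eval_C, sub_self, mul_zero, add_zero, zero_sub] at this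
    exact one_ne_zero (neg_eq_zero.mp this)
  obtain ⟨B, hAB, hB⟩ := Ideal.image_subset_nonunits_valuationSubring _ hI
  have hξ : m.x - algebraMap K F a ∈ B.nonunits :=
    hB ⟨ξ, Ideal.subset_span (by simp), rfl⟩
  have hη : m.y - algebraMap K F b ∈ B.nonunits :=
    hB ⟨η, Ideal.subset_span (by simp), rfl⟩
  have hK : ∀ c : K, algebraMap K F c ∈ B := fun c =>
    hAB ⟨C (C c), by
      show (C (C c) : K[X][Y]).aevalAeval m.x m.y = _
      rw [aevalAeval_C, aeval_C]⟩
  have ht0 : m.x - algebraMap K F a ≠ 0 := by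
    intro h
    exact transcendental_sub_algebraMap m.hx a (h ▸ isAlgebraic_zero)
  have hBtop : B ≠ ⊤ := by
    rintro rfl
    exact ((ValuationSubring.mem_nonunits_iff_or _).mp hξ).elim ht0 (fun h => h trivial)
  obtain ⟨w, rfl⟩ := exists_place_of_valuationSubring B hK hBtop
  have key : ∀ z : F, z ∈ w.toValuationSubring.nonunits → z = 0 ∨ 0 < w.ord z := by
    intro z hz
    refine ((ValuationSubring.mem_nonunits_iff_or _).mp hz).imp_right fun h => ?_
    by_contra hneg
    apply h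
    apply mem_toValuationSubring_of_ord_nonneg
    rw [w.ord_inv]
    omega
  have h1 := (key _ hξ).imp_left sub_eq_zero.mp
  have h2 := (key _ hη).imp_left sub_eq_zero.mp
  exact ⟨w, ord_nonneg_of_congr w h1, ord_nonneg_of_congr w h2, val_eq_of w h1, val_eq_of w h2⟩

/-- [SM] a smooth point of the plane model carries a place whose local ring is the local ring of
the plane curve. -/
theorem PlaneModel.exists_place (m : PlaneModel K F) (a b : K) (h0 : m.p.evalEval a b = 0)
    (h1 : (derivative m.p).evalEval a b ≠ 0) :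
    ∃ w : Place K F, 0 ≤ w.ord m.x ∧ 0 ≤ w.ord m.y ∧ val w m.x = a ∧ val w m.y = b ∧
      w.ord (m.x - algebraMap K F a) = 1 ∧
      ∀ f : F, 0 ≤ w.ord f → ∃ r s : K[X][Y], s.evalEval a b ≠ 0 ∧
        f * s.aevalAeval m.x m.y = r.aevalAeval m.x m.y := by
  obtain ⟨w, hx, hy, rfl, rfl⟩ := m.exists_place_centre a b h0
  obtain ⟨ht0, htpos⟩ := m.ord_x_sub_pos w hx
  refine ⟨w, hx, hy, rfl, rfl, ?_, ?_⟩
  · obtain ⟨π, hπ⟩ := exists_ord_eq_one w
    have hπ0 : π ≠ 0 := ne_zero_of_ord_ne_zero w (by omega)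
    obtain ⟨k, r, s, hr, hs, h⟩ := m.exists_decomp w hx hy h1 π hπ0
    have e := m.ord_of_decomp w hx hy hπ0 hr hs h
    rw [hπ] at e
    exact Int.eq_one_of_dvd_one htpos.le ⟨k, by rw [e]; ring⟩
  · intro f hf
    rcases eq_or_ne f 0 with rfl | hf0
    · exact ⟨0, 1, by simp, by simp⟩
    obtain ⟨k, r, s, hr, hs, h⟩ := m.exists_decomp w hx hy h1 f hf0
    have e := m.ord_of_decomp w hx hy hf0 hr hs h
    rw [e, mul_nonneg_iff_of_pos_right htpos] at hf
    obtain ⟨n, rfl⟩ := Int.eq_ofNat_of_zero_le hf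
    refine ⟨C (X - C (val w m.x)) ^ n * r, s, hs, ?_⟩
    rw [h, map_mul, map_pow, aevalAeval_C_X_sub_C, zpow_natCast]

omit [IsAlgClosed K] in
/-- every function has finitely many zeros. -/
theorem finite_setOf_ord_pos (f : F) : {w : Place K F | 0 < w.ord f}.Finite := by
  by_cases h : ∃ w : Place K F, 0 < w.ord f
  · obtain ⟨w, hw⟩ := h
    exact finite_zeros (transcendental_of_ord_ne_zero w hw.ne')
  · push Not at h
    convert Set.finite_empty
    ext w
    simpa using h w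

/-- all but finitely many places are smooth points of the affine plane model. -/
theorem PlaneModel.finite_bad (m : PlaneModel K F) :
    {w : Place K F | ¬ (0 ≤ w.ord m.x ∧ 0 ≤ w.ord m.y ∧
      (derivative m.p).evalEval (val w m.x) (val w m.y) ≠ 0)}.Finite := by
  refine (((finite_setOf_ord_pos (K := K) m.x⁻¹).union (finite_setOf_ord_pos (K := K) m.y⁻¹)).union
    (finite_setOf_ord_pos (K := K) ((derivative m.p).aevalAeval m.x m.y))).subset ?_
  intro w hw
  simp only [Set.mem_ofPred_eq, Set.mem_union, Place.ord_inv] at hw ⊢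
  by_contra hcon
  push Not at hcon
  obtain ⟨⟨hx, hy⟩, hd⟩ := hcon
  have hx' : 0 ≤ w.ord m.x := by omega
  have hy' : 0 ≤ w.ord m.y := by omega
  apply hw
  refine ⟨hx', hy', fun h => ?_⟩
  obtain ⟨h2, h3⟩ := m.val_aevalAeval w hx' hy' (derivative m.p)
  rw [h, val_eq_zero_iff w h2] at h3
  rcases h3 with h3 | h3
  · exact m.sep h3
  · omega

end Plane

end Fermat.Agent.S27
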