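import Fermat.Agent.S27.A.Api

/-!
# S27 block [C1]: the space of places of `F/ℂ` is compact Hausdorff, evaluations are continuous
-/

set_option autoImplicit false
set_option linter.unusedSectionVars false

namespace Fermat.Agent.S27

open AlgebraicCurve Fermat.Agent.S24.FF Topology Filter

section Top

variable {F : Type*} [Field F] [Algebra ℂ F]

theorem continuous_evalOP (f : F) : Continuous (fun v : Place ℂ F => evalOP v f) := by
  have h : Continuous (fun (v : Place ℂ F) (f : F) => evalOP v f) := continuous_induced_dom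
  exact (continuous_apply f).comp h

theorem top_evalOP_ne_infty_iff (v : Place ℂ F) (f : F) :
    evalOP v f ≠ OnePoint.infty ↔ 0 ≤ v.ord f := by
  unfold evalOP
  split_ifs with h
  · simp [h]
  · simp [h]

theorem top_evalOP_of_nonneg {v : Place ℂ F} {f : F} (h : 0 ≤ v.ord f) :
    evalOP v f = ((val v f : ℂ) : OnePoint ℂ) := by
  unfold evalOP
  rw [if_pos h]

theorem isOpen_setOf_ord_nonneg (f : F) : IsOpen {v : Place ℂ F | 0 ≤ v.ord f} := by
  have : {v : Place ℂ F | 0 ≤ v.ord f} =
      (fun v : Place ℂ F => evalOP v f) ⁻¹' {OnePoint.infty}ᶜ := by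
    ext v
    simp only [Set.mem_ofPred_eq, Set.mem_preimage, Set.mem_compl_iff, Set.mem_singleton_iff]
    exact (top_evalOP_ne_infty_iff v f).symm
  rw [this]
  exact isOpen_compl_singleton.preimage (continuous_evalOP f)

theorem continuousOn_val (f : F) :
    ContinuousOn (fun v : Place ℂ F => val v f) {v : Place ℂ F | 0 ≤ v.ord f} := by
  rw [(OnePoint.isOpenEmbedding_coe (X := ℂ)).isInducing.continuousOn_iff]
  refine (continuous_evalOP f).continuousOn.congr ?_
  intro v hv
  exact (top_evalOP_of_nonneg hv).symm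

theorem top_evalOP_injective :
    Function.Injective (fun (v : Place ℂ F) (f : F) => evalOP v f) := by
  intro v w h
  apply place_ext_of_ord_nonneg
  intro f _
  rw [← top_evalOP_ne_infty_iff, ← top_evalOP_ne_infty_iff]
  have : evalOP v f = evalOP w f := congrFun h f
  rw [this]

theorem t2Space_place [IsFF1 ℂ F] : T2Space (Place ℂ F) :=
  T2Space.of_injective_continuous top_evalOP_injective continuous_induced_dom

/-! ### compactness -/

section Limit

variable [IsFF1 ℂ F] {l : Filter (Place ℂ F)} [l.NeBot] {φ : F → OnePoint ℂ}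

theorem top_tendsto_val (h : ∀ f : F, Tendsto (fun v : Place ℂ F => evalOP v f) l (𝓝 (φ f)))
    {f : F} {a : ℂ} (hf : φ f = (a : OnePoint ℂ)) :
    (∀ᶠ v in l, 0 ≤ v.ord f) ∧ Tendsto (fun v : Place ℂ F => val v f) l (𝓝 a) := by
  have h1 : ∀ᶠ v in l, 0 ≤ v.ord f := by
    have hopen : IsOpen ({OnePoint.infty}ᶜ : Set (OnePoint ℂ)) := isOpen_compl_singleton
    have hmem : φ f ∈ ({OnePoint.infty}ᶜ : Set (OnePoint ℂ)) := by
      rw [hf]; simp
    filter_upwards [(h f).eventually (hopen.mem_nhds hmem)] with v hv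
    exact (top_evalOP_ne_infty_iff v f).1 hv
  refine ⟨h1, ?_⟩
  rw [(OnePoint.isOpenEmbedding_coe (X := ℂ)).isInducing.tendsto_nhds_iff]
  have h2 := h f
  rw [hf] at h2
  refine h2.congr' ?_
  filter_upwards [h1] with v hv
  exact top_evalOP_of_nonneg hv

theorem top_lim_algebraMap
    (h : ∀ f : F, Tendsto (fun v : Place ℂ F => evalOP v f) l (𝓝 (φ f))) (c : ℂ) :
    φ (algebraMap ℂ F c) = (c : OnePoint ℂ) := by
  have h1 : (fun v : Place ℂ F => evalOP v (algebraMap ℂ F c)) = fun _ => (c : OnePoint ℂ) := by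
    funext v
    rw [top_evalOP_of_nonneg (by rw [ord_algebraMap]), val_algebraMap]
  have h2 := h (algebraMap ℂ F c)
  rw [h1] at h2
  exact tendsto_nhds_unique h2 tendsto_const_nhds

theorem top_lim_add (h : ∀ f : F, Tendsto (fun v : Place ℂ F => evalOP v f) l (𝓝 (φ f)))
    {f g : F} {a b : ℂ} (hf : φ f = (a : OnePoint ℂ)) (hg : φ g = (b : OnePoint ℂ)) :
    φ (f + g) = ((a + b : ℂ) : OnePoint ℂ) := by
  obtain ⟨hf1, hf2⟩ := top_tendsto_val h hf
  obtain ⟨hg1, hg2⟩ := top_tendsto_val h hg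
  have h3 : Tendsto (fun v : Place ℂ F => evalOP v (f + g)) l (𝓝 ((a + b : ℂ) : OnePoint ℂ)) := by
    have h4 : Tendsto (fun v : Place ℂ F => ((val v f + val v g : ℂ) : OnePoint ℂ)) l
        (𝓝 ((a + b : ℂ) : OnePoint ℂ)) :=
      (OnePoint.continuous_coe.tendsto _).comp (hf2.add hg2)
    refine h4.congr' ?_
    filter_upwards [hf1, hg1] with v hv hw
    rw [top_evalOP_of_nonneg (ord_add_nonneg v hv hw), val_add v hv hw]
  exact tendsto_nhds_unique (h (f + g)) h3

theorem top_lim_mul (h : ∀ f : F, Tendsto (fun v : Place ℂ F => evalOP v f) l (𝓝 (φ f)))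
    {f g : F} {a b : ℂ} (hf : φ f = (a : OnePoint ℂ)) (hg : φ g = (b : OnePoint ℂ)) :
    φ (f * g) = ((a * b : ℂ) : OnePoint ℂ) := by
  obtain ⟨hf1, hf2⟩ := top_tendsto_val h hf
  obtain ⟨hg1, hg2⟩ := top_tendsto_val h hg
  have h3 : Tendsto (fun v : Place ℂ F => evalOP v (f * g)) l (𝓝 ((a * b : ℂ) : OnePoint ℂ)) := by
    have h4 : Tendsto (fun v : Place ℂ F => ((val v f * val v g : ℂ) : OnePoint ℂ)) l
        (𝓝 ((a * b : ℂ) : OnePoint ℂ)) :=
      (OnePoint.continuous_coe.tendsto _).comp (hf2.mul hg2)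
    refine h4.congr' ?_
    filter_upwards [hf1, hg1] with v hv hw
    have hmem : 0 ≤ v.ord (f * g) :=
      ord_nonneg_of_mem v (mul_mem (mem_toValuationSubring_of_ord_nonneg v hv)
        (mem_toValuationSubring_of_ord_nonneg v hw))
    rw [top_evalOP_of_nonneg hmem, val_mul v hv hw]
  exact tendsto_nhds_unique (h (f * g)) h3

end Limit

/-- the image of the closed unit disc in `ℂ ∪ {∞}`. -/
def topDisc : Set (OnePoint ℂ) := (fun z : ℂ => (z : OnePoint ℂ)) '' Metric.closedBall 0 1

theorem top_isClosed_topDisc : IsClosed topDisc :=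
  ((isCompact_closedBall (0 : ℂ) 1).image OnePoint.continuous_coe).isClosed

theorem top_infty_notMem_topDisc : OnePoint.infty ∉ topDisc := by
  rintro ⟨z, -, hz⟩
  exact OnePoint.coe_ne_infty z hz

theorem top_mem_topDisc_or [IsFF1 ℂ F] (v : Place ℂ F) {f : F} (hf : f ≠ 0) :
    evalOP v f ∈ topDisc ∨ evalOP v f⁻¹ ∈ topDisc := by
  have key : ∀ g : F, g ≠ 0 → 0 < v.ord g → evalOP v g ∈ topDisc := by
    intro g _ hg
    rw [top_evalOP_of_nonneg hg.le, (val_eq_zero_iff v hg.le).2 (Or.inr hg)]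
    exact ⟨0, by simp, rfl⟩
  rcases lt_trichotomy (v.ord f) 0 with h | h | h
  · right
    exact key _ (inv_ne_zero hf) (by rw [v.ord_inv]; omega)
  · have h1 : 0 ≤ v.ord f := h.ge
    have h2 : 0 ≤ v.ord f⁻¹ := by rw [v.ord_inv]; omega
    have h3 : val v f * val v f⁻¹ = 1 := by
      rw [← val_mul v h1 h2, mul_inv_cancel₀ hf, ← map_one (algebraMap ℂ F), val_algebraMap]
    rw [top_evalOP_of_nonneg h1, top_evalOP_of_nonneg h2]
    by_cases h4 : ‖val v f‖ ≤ 1
    · left
      exact ⟨_, by simpa using h4, rfl⟩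
    · right
      refine ⟨_, ?_, rfl⟩
      have h5 : ‖val v f‖ * ‖val v f⁻¹‖ = 1 := by rw [← norm_mul, h3, norm_one]
      have h6 : 0 ≤ ‖val v f⁻¹‖ := norm_nonneg _
      simp only [Metric.mem_closedBall, dist_zero_right]
      nlinarith
  · left
    exact key _ hf h

theorem top_exists_place_of_tendsto [IsFF1 ℂ F] (l : Ultrafilter (Place ℂ F))
    (φ : F → OnePoint ℂ)
    (h : ∀ f : F, Tendsto (fun v : Place ℂ F => evalOP v f) l (𝓝 (φ f))) :
    ∃ v : Place ℂ F, ∀ f : F, evalOP v f = φ f := by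
  have hfin : ∀ f : F, φ f ≠ OnePoint.infty → ∃ a : ℂ, φ f = (a : OnePoint ℂ) := by
    intro f hf
    obtain ⟨a, ha⟩ := OnePoint.ne_infty_iff_exists.1 hf
    exact ⟨a, ha.symm⟩
  have hinv : ∀ f : F, f ≠ 0 → φ f ≠ OnePoint.infty ∨ φ f⁻¹ ≠ OnePoint.infty := by
    intro f hf
    have h1 : ∀ᶠ v in (l : Filter (Place ℂ F)),
        evalOP v f ∈ topDisc ∨ evalOP v f⁻¹ ∈ topDisc :=
      Filter.Eventually.of_forall fun v => top_mem_topDisc_or v hf
    rcases Ultrafilter.eventually_or.1 h1 with h2 | h2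
    · left
      intro h3
      exact top_infty_notMem_topDisc (h3 ▸ top_isClosed_topDisc.mem_of_tendsto (h f) h2)
    · right
      intro h3
      exact top_infty_notMem_topDisc (h3 ▸ top_isClosed_topDisc.mem_of_tendsto (h f⁻¹) h2)
  -- the valuation ring
  let O : ValuationSubring F :=
    { carrier := {f | φ f ≠ OnePoint.infty}
      mul_mem' := by
        intro f g hf hg
        obtain ⟨a, ha⟩ := hfin f hf
        obtain ⟨b, hb⟩ := hfin g hg
        show φ (f * g) ≠ OnePoint.infty
        rw [top_lim_mul h ha hb]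
        exact OnePoint.coe_ne_infty _
      one_mem' := by
        show φ 1 ≠ OnePoint.infty
        rw [← map_one (algebraMap ℂ F), top_lim_algebraMap h]
        exact OnePoint.coe_ne_infty _
      add_mem' := by
        intro f g hf hg
        obtain ⟨a, ha⟩ := hfin f hf
        obtain ⟨b, hb⟩ := hfin g hg
        show φ (f + g) ≠ OnePoint.infty
        rw [top_lim_add h ha hb]
        exact OnePoint.coe_ne_infty _
      zero_mem' := by
        show φ 0 ≠ OnePoint.infty
        rw [← map_zero (algebraMap ℂ F), top_lim_algebraMap h]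
        exact OnePoint.coe_ne_infty _
      neg_mem' := by
        intro f hf
        obtain ⟨a, ha⟩ := hfin f hf
        show φ (-f) ≠ OnePoint.infty
        have h1 : -f = algebraMap ℂ F (-1) * f := by simp
        rw [h1, top_lim_mul h (top_lim_algebraMap h (-1)) ha]
        exact OnePoint.coe_ne_infty _
      mem_or_inv_mem' := by
        intro f
        rcases eq_or_ne f 0 with rfl | hf
        · left
          show φ 0 ≠ OnePoint.infty
          rw [← map_zero (algebraMap ℂ F), top_lim_algebraMap h]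
          exact OnePoint.coe_ne_infty _
        · exact hinv f hf }
  have hOmem : ∀ f : F, f ∈ O ↔ φ f ≠ OnePoint.infty := fun f => Iff.rfl
  have hK : ∀ a : ℂ, algebraMap ℂ F a ∈ O := by
    intro a
    rw [hOmem, top_lim_algebraMap h]
    exact OnePoint.coe_ne_infty _
  -- a function with value `0` is not invertible in `O`
  have hzero : ∀ g : F, g ≠ 0 → φ g = ((0 : ℂ) : OnePoint ℂ) → g⁻¹ ∉ O := by
    intro g hg h0 hmem
    obtain ⟨b, hb⟩ := hfin _ ((hOmem _).1 hmem)
    have h1 := top_lim_mul h h0 hb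
    rw [mul_inv_cancel₀ hg, ← map_one (algebraMap ℂ F), top_lim_algebraMap h, zero_mul] at h1
    exact one_ne_zero (OnePoint.coe_injective h1)
  have hsub : ∀ (f : F) (a : ℂ), φ f = (a : OnePoint ℂ) →
      φ (f - algebraMap ℂ F a) = ((0 : ℂ) : OnePoint ℂ) := by
    intro f a ha
    have h1 : f - algebraMap ℂ F a = f + algebraMap ℂ F (-a) := by
      rw [map_neg, sub_eq_add_neg]
    rw [h1, top_lim_add h ha (top_lim_algebraMap h (-a)), add_neg_cancel]
  have hO : O ≠ ⊤ := by
    intro htop
    obtain ⟨t, ht, -⟩ := IsFF1.exists_transcendental (K := ℂ) (F := F)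
    have ht1 : t ∈ O := by rw [htop]; exact ValuationSubring.mem_top t
    obtain ⟨a, ha⟩ := hfin t ((hOmem t).1 ht1)
    have hne : t - algebraMap ℂ F a ≠ 0 := by
      intro h0
      apply ht
      rw [sub_eq_zero.1 h0]
      exact isAlgebraic_algebraMap a
    refine hzero _ hne (hsub t a ha) ?_
    rw [htop]
    exact ValuationSubring.mem_top _
  obtain ⟨v, hv⟩ := exists_place_of_valuationSubring O hK hO
  refine ⟨v, fun f => ?_⟩
  by_cases hf : φ f = OnePoint.infty
  · rw [hf]
    by_contra hne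
    have h1 := mem_toValuationSubring_of_ord_nonneg v ((top_evalOP_ne_infty_iff v f).1 hne)
    rw [hv] at h1
    exact (hOmem f).1 h1 hf
  · obtain ⟨a, ha⟩ := hfin f hf
    have h1 : f ∈ v.toValuationSubring := by rw [hv]; exact (hOmem f).2 hf
    rw [ha, top_evalOP_of_nonneg (ord_nonneg_of_mem v h1)]
    congr 1
    apply val_eq_of
    by_cases hfa : f = algebraMap ℂ F a
    · exact Or.inl hfa
    · right
      have hne : f - algebraMap ℂ F a ≠ 0 := sub_ne_zero.2 hfa
      have h2 := hzero _ hne (hsub f a ha)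
      rw [← hv] at h2
      by_contra h3
      apply h2
      apply mem_toValuationSubring_of_ord_nonneg
      rw [v.ord_inv]
      omega

theorem compactSpace_place [IsFF1 ℂ F] : CompactSpace (Place ℂ F) := by
  refine ⟨isCompact_iff_ultrafilter_le_nhds.2 fun l _ => ?_⟩
  obtain ⟨v, hv⟩ := top_exists_place_of_tendsto l
    (fun f => (l.map (fun v : Place ℂ F => evalOP v f)).lim)
    (fun f => (l.map (fun v : Place ℂ F => evalOP v f)).le_nhds_lim)
  refine ⟨v, Set.mem_univ v, ?_⟩
  rw [nhds_induced, nhds_pi, ← Filter.tendsto_iff_comap, Filter.tendsto_pi]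
  intro f
  rw [hv f]
  exact (l.map (fun v : Place ℂ F => evalOP v f)).le_nhds_lim

end Top

end Fermat.Agent.S27
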